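import Fermat.Agent.LTF.Pet.Weight
import Mathlib.Analysis.Complex.UpperHalfPlane.Measure
import Mathlib.NumberTheory.ModularForms.ProperlyDiscontinuous
import Mathlib.NumberTheory.Modular
import Mathlib.MeasureTheory.Measure.Lebesgue.Complex
import Mathlib.MeasureTheory.Integral.Gamma

/-!
# The modular group has a weight on the upper half plane (LTFREE, Petersson (P1))
-/

set_option autoImplicit false

noncomputable section

open MeasureTheory UpperHalfPlane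
open scoped ENNReal MatrixGroups Modular

namespace Fermat.Agent.LTF.Pet

/-- open sets of the upper half plane have positive volume -/
theorem volume_pos_of_isOpen {U : Set ℍ} (hU : IsOpen U) (hne : U.Nonempty) :
    (volume : Measure ℍ) U ≠ 0 := by
  intro h1
  rw [volume_eq_lintegral] at h1
  have hm : MeasurableSet (UpperHalfPlane.coe '' U) :=
    measurableEmbedding_coe.measurableSet_image.mpr hU.measurableSet
  have hmf : Measurable (fun z : ℂ => (((1 / ‖z.im‖₊) ^ 2 : NNReal) : ℝ≥0∞)) := by fun_prop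
  have hop : IsOpen (UpperHalfPlane.coe '' U) := isOpenEmbedding_coe.isOpenMap _ hU
  have h2 := (lintegral_eq_zero_iff hmf).mp h1
  have h3 : (volume : Measure ℂ) (UpperHalfPlane.coe '' U) = 0 := by
    rw [Filter.EventuallyEq, ae_restrict_iff' hm] at h2
    rw [ae_iff] at h2
    refine measure_mono_null ?_ h2
    rintro _ ⟨z, hz, rfl⟩
    simp only [Pi.zero_apply, Set.mem_setOf_eq, Classical.not_imp]
    refine ⟨⟨z, hz, rfl⟩, ?_⟩
    simp [z.im_ne_zero]
  exact (hop.measure_pos volume (hne.image _)).ne' h3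

theorem volume_ne_zero : (volume : Measure ℍ) ≠ 0 := by
  intro h
  refine volume_pos_of_isOpen (U := Set.univ) isOpen_univ ⟨UpperHalfPlane.I, trivial⟩ ?_
  rw [h]; rfl

/-- the standard fundamental domain has finite volume -/
theorem volume_fd_ne_top : (volume : Measure ℍ) 𝒟 ≠ ∞ := by
  rw [volume_eq_lintegral]
  let f : ℂ → ℝ≥0∞ := fun z => (((1 / ‖z.im‖₊) ^ 2 : NNReal) : ℝ≥0∞)
  let R : Set (ℝ × ℝ) := Set.Icc (-1) 1 ×ˢ Set.Ioi (1/2 : ℝ)
  have hsub : UpperHalfPlane.coe '' 𝒟 ⊆ Complex.measurableEquivRealProd ⁻¹' R := by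
    rintro _ ⟨z, hz, rfl⟩
    simp only [Set.mem_preimage, R, Set.mem_prod, Set.mem_Icc, Set.mem_Ioi,
      Complex.measurableEquivRealProd_apply]
    have h1 := ModularGroup.three_le_four_mul_im_sq_of_mem_fd hz
    have h2 := hz.2
    rw [abs_le] at h2
    refine ⟨⟨by have := h2.1; simp; linarith, by have := h2.2; simp; linarith⟩, ?_⟩
    simp only [coe_im]
    nlinarith [z.im_pos]
  refine ne_top_of_le_ne_top ?_ (lintegral_mono_set hsub)
  have hR : MeasurableSet R := measurableSet_Icc.prod measurableSet_Ioi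
  have e1 : ∫⁻ z in Complex.measurableEquivRealProd ⁻¹' R, f z =
      ∫⁻ p in R, (((1 / ‖p.2‖₊) ^ 2 : NNReal) : ℝ≥0∞) := by
    rw [← Complex.volume_preserving_equiv_real_prod.setLIntegral_comp_preimage hR (by fun_prop)]
    rfl
  change ∫⁻ z in Complex.measurableEquivRealProd ⁻¹' R, f z ≠ ∞
  rw [e1, Measure.volume_eq_prod, ← Measure.prod_restrict, lintegral_prod _ (by fun_prop)]
  simp only []
  rw [lintegral_const]
  refine ENNReal.mul_ne_top ?_ (by simp)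
  have hint : IntegrableOn (fun t : ℝ => t ^ (-2 : ℝ)) (Set.Ioi (1/2 : ℝ)) :=
    integrableOn_Ioi_rpow_of_lt (by norm_num) (by norm_num)
  have := hint.hasFiniteIntegral
  unfold HasFiniteIntegral at this
  refine ne_of_lt (lt_of_le_of_lt (le_of_eq ?_) this)
  refine setLIntegral_congr_fun measurableSet_Ioi fun t ht => ?_
  have ht0 : (0 : ℝ) < t := lt_trans (by norm_num) ht
  have e : (1 / ‖t‖₊) ^ 2 = ‖t ^ (-2 : ℝ)‖₊ := by
    ext
    push_cast
    rw [Real.norm_of_nonneg ht0.le, Real.norm_of_nonneg (Real.rpow_nonneg ht0.le _),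
      Real.rpow_neg ht0.le]
    norm_num
  rw [e]
  rfl

/-! ### the weight of the modular group -/

/-- number of group elements moving `z` into the fundamental domain -/
def cnt (z : ℍ) : ℝ≥0∞ := ∑' γ : (𝒮ℒ : Subgroup (GL (Fin 2) ℝ)), (𝒟 : Set ℍ).indicator 1 ((γ : GL (Fin 2) ℝ) • z)

instance : Countable SL(2, ℤ) := by
  have : Countable (Matrix (Fin 2) (Fin 2) ℤ) := by
    unfold Matrix
    infer_instance
  exact (Subtype.coe_injective : Function.Injective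
    (fun g : SL(2, ℤ) => (g : Matrix (Fin 2) (Fin 2) ℤ))).countable

instance : Countable (𝒮ℒ : Subgroup (GL (Fin 2) ℝ)) := by
  have : Function.Surjective (Matrix.SpecialLinearGroup.mapGL ℝ : SL(2, ℤ) →* GL (Fin 2) ℝ).rangeRestrict :=
    MonoidHom.rangeRestrict_surjective _
  exact this.countable

theorem measurable_cnt : Measurable cnt := by
  unfold cnt
  refine Measurable.ennreal_tsum fun γ => ?_
  have h1 : Measurable (fun z : ℍ => (γ : GL (Fin 2) ℝ) • z) := measurable_const_smul _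
  exact (measurable_one.indicator ModularGroup.isClosed_fd.measurableSet).comp h1

theorem one_le_cnt (z : ℍ) : 1 ≤ cnt z := by
  obtain ⟨g, hg⟩ := ModularGroup.exists_smul_mem_fd z
  have h1 : (𝒟 : Set ℍ).indicator (1 : ℍ → ℝ≥0∞) (((Matrix.SpecialLinearGroup.mapGL ℝ g : GL (Fin 2) ℝ)) • z) ≤ cnt z :=
    ENNReal.le_tsum (f := fun γ : (𝒮ℒ : Subgroup (GL (Fin 2) ℝ)) =>
      (𝒟 : Set ℍ).indicator (1 : ℍ → ℝ≥0∞) ((γ : GL (Fin 2) ℝ) • z)) ⟨Matrix.SpecialLinearGroup.mapGL ℝ g, g, rfl⟩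
  have h2 : (𝒟 : Set ℍ).indicator (1 : ℍ → ℝ≥0∞)
      (((Matrix.SpecialLinearGroup.mapGL ℝ g : GL (Fin 2) ℝ)) • z) = 1 :=
    Set.indicator_of_mem (show ((Matrix.SpecialLinearGroup.mapGL ℝ g : GL (Fin 2) ℝ)) • z ∈ 𝒟 from hg) _
  rwa [h2] at h1

theorem cnt_ne_top (z : ℍ) : cnt z ≠ ∞ := by
  obtain ⟨g, hg⟩ := ModularGroup.exists_max_im z
  set Y := (g • z).im with hY
  have hfin := ProperlyDiscontinuousSMul.finite_disjoint_inter_image
    (Γ := (𝒮ℒ : Subgroup (GL (Fin 2) ℝ))) (K := {z}) (L := ModularGroup.truncatedFundamentalDomain Y)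
    isCompact_singleton (ModularGroup.isCompact_truncatedFundamentalDomain Y)
  have h0 : ∀ γ : (𝒮ℒ : Subgroup (GL (Fin 2) ℝ)), γ ∉ hfin.toFinset →
      (𝒟 : Set ℍ).indicator (1 : ℍ → ℝ≥0∞) ((γ : GL (Fin 2) ℝ) • z) = 0 := by
    intro γ hγ
    refine Set.indicator_of_notMem (fun hmem => hγ ?_) _
    rw [Set.Finite.mem_toFinset, Set.mem_setOf_eq]
    refine ⟨γ • z, ⟨z, rfl, rfl⟩, hmem, ?_⟩
    obtain ⟨g', hg'⟩ := γ.2
    have := hg g'
    change ((γ : GL (Fin 2) ℝ) • z).im ≤ Y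
    rw [← hg']
    exact this
  unfold cnt
  rw [tsum_eq_sum (s := hfin.toFinset) fun γ hγ => h0 γ hγ]
  refine ENNReal.sum_ne_top.mpr fun γ _ => ?_
  refine ne_top_of_le_ne_top ENNReal.one_ne_top ?_
  exact Set.indicator_le_self' (f := (1 : ℍ → ℝ≥0∞)) (fun _ _ => zero_le_one) _

theorem cnt_smul (γ : (𝒮ℒ : Subgroup (GL (Fin 2) ℝ))) (z : ℍ) :
    cnt ((γ : GL (Fin 2) ℝ) • z) = cnt z := by
  unfold cnt
  rw [← (Equiv.mulRight γ).tsum_eq (fun δ : (𝒮ℒ : Subgroup (GL (Fin 2) ℝ)) =>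
    (𝒟 : Set ℍ).indicator (1 : ℍ → ℝ≥0∞) ((δ : GL (Fin 2) ℝ) • z))]
  refine tsum_congr fun δ => ?_
  rw [smul_smul]
  rfl

/-- the weight of the modular group -/
theorem isWt_SL : IsWt (volume : Measure ℍ) (𝒮ℒ : Subgroup (GL (Fin 2) ℝ))
    (fun z => (𝒟 : Set ℍ).indicator 1 z * (cnt z)⁻¹) 1 where
  meas := (measurable_one.indicator ModularGroup.isClosed_fd.measurableSet).mul
    measurable_cnt.inv
  fin := by
    refine ne_top_of_le_ne_top volume_fd_ne_top ?_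
    rw [← lintegral_indicator_one ModularGroup.isClosed_fd.measurableSet]
    refine lintegral_mono fun z => ?_
    calc (𝒟 : Set ℍ).indicator (1 : ℍ → ℝ≥0∞) z * (cnt z)⁻¹
        ≤ (𝒟 : Set ℍ).indicator (1 : ℍ → ℝ≥0∞) z * 1 := by
          gcongr
          exact ENNReal.inv_le_one.mpr (one_le_cnt z)
      _ = (𝒟 : Set ℍ).indicator (1 : ℍ → ℝ≥0∞) z := mul_one _
  c0 := one_ne_zero
  ctop := ENNReal.one_ne_top
  sum := by
    intro z
    have h1 : ∀ γ : (𝒮ℒ : Subgroup (GL (Fin 2) ℝ)),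
        (𝒟 : Set ℍ).indicator (1 : ℍ → ℝ≥0∞) ((γ : GL (Fin 2) ℝ) • z) *
          (cnt ((γ : GL (Fin 2) ℝ) • z))⁻¹ =
        (𝒟 : Set ℍ).indicator (1 : ℍ → ℝ≥0∞) ((γ : GL (Fin 2) ℝ) • z) * (cnt z)⁻¹ := by
      intro γ
      rw [cnt_smul]
    rw [tsum_congr h1, ENNReal.tsum_mul_right]
    have h2 : cnt z ≠ 0 := fun h => by
      have := one_le_cnt z; rw [h] at this; simp at this
    exact ENNReal.mul_inv_cancel h2 (cnt_ne_top z)

/-! ### arithmetic groups -/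

variable (Γ : Subgroup (GL (Fin 2) ℝ)) [hΓ : Γ.IsArithmetic]

instance countable_of_isArithmetic : Countable Γ := by
  have h1 : ((Γ ⊓ 𝒮ℒ).subgroupOf Γ).FiniteIndex := by
    constructor
    change (Γ ⊓ 𝒮ℒ).relIndex Γ ≠ 0
    rw [Subgroup.inf_relIndex_left]
    exact hΓ.is_commensurable.2
  have h2 : Finite (Γ ⧸ ((Γ ⊓ 𝒮ℒ).subgroupOf Γ)) := Subgroup.finite_quotient_of_finiteIndex
  have h3 : Countable ((Γ ⊓ 𝒮ℒ).subgroupOf Γ) := by
    let f : (Γ ⊓ 𝒮ℒ).subgroupOf Γ → (𝒮ℒ : Subgroup (GL (Fin 2) ℝ)) := fun x =>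
      ⟨((x : Γ) : GL (Fin 2) ℝ), (Subgroup.mem_subgroupOf.mp x.2).2⟩
    have hf : Function.Injective f := by
      intro x y h
      have := congrArg (fun z : (𝒮ℒ : Subgroup (GL (Fin 2) ℝ)) => (z : GL (Fin 2) ℝ)) h
      exact Subtype.ext (Subtype.ext this)
    exact hf.countable
  exact (cosetEquiv ((Γ ⊓ 𝒮ℒ).subgroupOf Γ)).surjective.countable

/-- every arithmetic group has a weight -/
theorem exists_isWt : ∃ (ρ : ℍ → ℝ≥0∞) (c : ℝ≥0∞), IsWt (volume : Measure ℍ) Γ ρ c := by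
  obtain ⟨ρ, hρ⟩ := isWt_SL.exists_of_le (Γ' := Γ ⊓ 𝒮ℒ) inf_le_right (by
    rw [Subgroup.inf_relIndex_right]
    exact hΓ.is_commensurable.1)
  refine ⟨ρ, _, hρ.of_le inf_le_left ?_⟩
  rw [Subgroup.inf_relIndex_left]
  exact hΓ.is_commensurable.2

/-- the probability measure attached to an arithmetic group -/
def pr : Measure ℍ := prw volume (exists_isWt Γ).choose

instance : IsProbabilityMeasure (pr Γ) :=
  (exists_isWt Γ).choose_spec.choose_spec.isProb volume_ne_zero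

/-- `S` is invariant under `Γ` -/
def Inv (S : Set ℍ) : Prop := ∀ γ ∈ Γ, ∀ z : ℍ, γ • z ∈ S ↔ z ∈ S

variable {Γ}

theorem prw_eq_pr {ρ : ℍ → ℝ≥0∞} {c : ℝ≥0∞} (h : IsWt (volume : Measure ℍ) Γ ρ c) {S : Set ℍ}
    (hS : MeasurableSet S) (hinv : Inv Γ S) : prw volume ρ S = pr Γ S :=
  h.prw_eq (exists_isWt Γ).choose_spec.choose_spec volume_ne_zero hS hinv

/-- the measures of commensurable groups agree on common invariant sets -/
theorem pr_eq_pr {Γ' : Subgroup (GL (Fin 2) ℝ)} [hΓ' : Γ'.IsArithmetic] {S : Set ℍ}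
    (hS : MeasurableSet S) (h : Inv Γ S) (h' : Inv Γ' S) : pr Γ S = pr Γ' S := by
  obtain ⟨ρ, c, hρ⟩ := exists_isWt (Γ ⊓ Γ')
  have hc : Subgroup.Commensurable Γ Γ' :=
    hΓ.is_commensurable.trans hΓ'.is_commensurable.symm
  have h1 := hρ.of_le inf_le_left (by rw [Subgroup.inf_relIndex_left]; exact hc.2)
  have h2 := hρ.of_le inf_le_right (by rw [Subgroup.inf_relIndex_right]; exact hc.1)
  rw [← prw_eq_pr h1 hS h, ← prw_eq_pr h2 hS h']

/-- translation -/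
theorem pr_translate {Γ' : Subgroup (GL (Fin 2) ℝ)} [hΓ' : Γ'.IsArithmetic]
    (g : GL (Fin 2) ℝ) (hg : ∀ x : GL (Fin 2) ℝ, x ∈ Γ' ↔ g * x * g⁻¹ ∈ Γ) {S : Set ℍ}
    (hS : MeasurableSet S) (h : Inv Γ S) : pr Γ' ((fun z => g • z) ⁻¹' S) = pr Γ S := by
  obtain ⟨ρ, c, hρ⟩ := exists_isWt Γ
  have hms : Measurable (fun z : ℍ => g • z) := measurable_const_smul g
  have h' : Inv Γ' ((fun z => g • z) ⁻¹' S) := by
    intro γ hγ z
    have := h _ ((hg γ).mp hγ) (g • z)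
    simp only [Set.mem_preimage]
    rw [← this, smul_smul, smul_smul, inv_mul_cancel_right]
  rw [← prw_eq_pr (hρ.comp_smul g hg) (hms hS) h', prw_comp_smul hρ.meas g hS, prw_eq_pr hρ hS h]

/-- null invariant sets -/
theorem volume_eq_zero_of_pr {S : Set ℍ} (hS : MeasurableSet S) (h : Inv Γ S) (h0 : pr Γ S = 0) :
    (volume : Measure ℍ) S = 0 := by
  obtain ⟨ρ, c, hρ⟩ := exists_isWt Γ
  rw [← prw_eq_pr hρ hS h, prw_apply, mul_eq_zero] at h0
  refine hρ.ae hS h (h0.resolve_left ?_)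
  exact ENNReal.inv_ne_zero.mpr hρ.measure_univ_ne_top

end Fermat.Agent.LTF.Pet
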