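import Mathlib.LinearAlgebra.Eigenspace.Pi
import Mathlib.LinearAlgebra.Eigenspace.Triangularizable
import Mathlib.Analysis.Complex.Polynomial.Basic
import Mathlib.RingTheory.Adjoin.Basic

/-!
# Families of commuting diagonalisable operators (LTFREE, Petersson (P2))
-/

set_option autoImplicit false

noncomputable section

namespace Fermat.Agent.LTF.Pet

variable {ι : Type*} {W : Type*} [AddCommGroup W] [Module ℂ W]

/-- an operator without nontrivial generalised eigenvectors -/
def Diag (T : Module.End ℂ W) : Prop := ∀ (a : ℂ) (v : W), T (T v - a • v) = a • (T v - a • v) → T v = a • v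

theorem Diag.eq_zero {T : Module.End ℂ W} (hT : Diag T) (a : ℂ) (k : ℕ) {v : W}
    (h : ((T - algebraMap ℂ (Module.End ℂ W) a) ^ k) v = 0) : k ≠ 0 → T v = a • v := by
  induction k generalizing v with
  | zero => intro h; exact absurd rfl h
  | succ k ih =>
    intro _
    rcases Nat.eq_zero_or_pos k with rfl | hk
    · rw [zero_add, pow_one] at h
      simpa [sub_eq_zero] using h
    · rw [pow_succ, Module.End.mul_apply] at h
      have h1 := ih h hk.ne'
      refine hT a v ?_
      simpa using h1

theorem Diag.maxGenEigenspace {T : Module.End ℂ W} (hT : Diag T) (a : ℂ) :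
    T.maxGenEigenspace a = T.eigenspace a := by
  refine le_antisymm ?_ ?_
  · intro v hv
    rw [Module.End.mem_maxGenEigenspace] at hv
    obtain ⟨k, hk⟩ := hv
    rw [Module.End.mem_eigenspace_iff]
    refine hT.eq_zero a (k + 1) ?_ (Nat.succ_ne_zero k)
    have : T - algebraMap ℂ (Module.End ℂ W) a = T - a • 1 := by
      rw [Algebra.algebraMap_eq_smul_one]
    rw [this, pow_succ', Module.End.mul_apply, hk, map_zero]
  · intro v hv
    rw [Module.End.mem_eigenspace_iff] at hv
    rw [Module.End.mem_maxGenEigenspace]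
    exact ⟨1, by simp [hv]⟩

/-- involutions are diagonalisable -/
theorem Diag.of_sq {T : Module.End ℂ W} (h : ∀ v, T (T v) = v) : Diag T := by
  intro a v hv
  rw [map_sub, map_smul, h v] at hv
  -- v - a T v = a T v - a² v, i.e. (1 + a²) v = 2 a T v
  have h1 : (1 + a ^ 2) • v = (2 * a) • T v := by
    have h2 : v - a • T v - a • (T v - a • v) = 0 := sub_eq_zero.mpr hv
    have h3 : (1 + a ^ 2) • v - (2 * a) • T v = v - a • T v - a • (T v - a • v) := by module
    rw [← sub_eq_zero, h3, h2]
  have h4 := congrArg T h1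
  rw [map_smul, map_smul, h v] at h4
  -- (1 + a²) T v = 2 a v
  have h5 : ((1 + a ^ 2) ^ 2 - (2 * a) ^ 2) • v = 0 := by
    have : ((1 + a ^ 2) ^ 2 - (2 * a) ^ 2) • v =
        (1 + a ^ 2) • ((1 + a ^ 2) • v) - (2 * a) • ((2 * a) • v) := by module
    rw [this, h1, ← h4]
    module
  have h6 : ((1 - a ^ 2) ^ 2) • v = 0 := by
    have : (1 - a ^ 2) ^ 2 = (1 + a ^ 2) ^ 2 - (2 * a) ^ 2 := by ring
    rw [this]; exact h5
  rcases smul_eq_zero.mp h6 with h7 | h7
  · have h8 : a ^ 2 = 1 := by
      have : (1 - a ^ 2) = 0 := by simpa using h7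
      linear_combination -this
    have ha : (2 * a) ≠ 0 := by
      intro h0
      have : a = 0 := by simpa using h0
      rw [this] at h8
      norm_num at h8
    rw [h8] at h1
    have h9 : (2 * a) • T v = (2 * a) • (a • v) := by
      rw [← h1, smul_smul]
      congr 1
      linear_combination (-2 : ℂ) * h8
    exact smul_right_injective W ha h9
  · rw [h7]; simp

variable [FiniteDimensional ℂ W] {A : ι → Module.End ℂ W}

/-- simultaneous eigenspaces span -/
theorem iSup_eigenspace_eq_top (hc : ∀ i j, Commute (A i) (A j)) (hd : ∀ i, Diag (A i)) :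
    ⨆ χ : ι → ℂ, ⨅ i, (A i).eigenspace (χ i) = ⊤ := by
  have h := Module.End.iSup_iInf_maxGenEigenspace_eq_top_of_iSup_maxGenEigenspace_eq_top_of_commute
    A (fun i j _ => hc i j) (fun i => Module.End.iSup_maxGenEigenspace_eq_top (A i))
  rw [← h]
  refine iSup_congr fun χ => iInf_congr fun i => ?_
  rw [(hd i).maxGenEigenspace]

/-- every vector is a finite sum of simultaneous eigenvectors -/
theorem exists_sum_eigenvectors (hc : ∀ i j, Commute (A i) (A j)) (hd : ∀ i, Diag (A i)) (v : W) :
    ∃ (s : Finset (ι → ℂ)) (g : (ι → ℂ) → W), (∀ χ i, A i (g χ) = χ i • g χ) ∧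
      v = ∑ χ ∈ s, g χ := by
  have hv : v ∈ ⨆ χ : ι → ℂ, ⨅ i, (A i).eigenspace (χ i) := by
    rw [iSup_eigenspace_eq_top hc hd]; trivial
  rw [Submodule.mem_iSup_iff_exists_finsupp] at hv
  obtain ⟨f, hf, hsum⟩ := hv
  refine ⟨f.support, fun χ => f χ, fun χ i => ?_, ?_⟩
  · have := hf χ
    rw [Submodule.mem_iInf] at this
    exact Module.End.mem_eigenspace_iff.mp (this i)
  · rw [← hsum]; rfl

/-- induction principle: a property closed under sums which holds for simultaneous eigenvectors -/
theorem induction_eigenvectors (hc : ∀ i j, Commute (A i) (A j)) (hd : ∀ i, Diag (A i))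
    {P : W → Prop} (h0 : P 0) (hadd : ∀ x y, P x → P y → P (x + y))
    (hP : ∀ (χ : ι → ℂ) (x : W), (∀ i, A i x = χ i • x) → P x) (v : W) : P v := by
  classical
  obtain ⟨s, g, hg, rfl⟩ := exists_sum_eigenvectors hc hd v
  induction s using Finset.induction_on with
  | empty => rw [Finset.sum_empty]; exact h0
  | insert a s ha ih => rw [Finset.sum_insert ha]; exact hadd _ _ (hP a _ (hg a)) ih

/-- elements of the algebra generated by the family act by scalars on simultaneous eigenvectors -/
theorem exists_scalar_of_mem_adjoin {R : Type*} [CommRing R] [Algebra R (Module.End ℂ W)]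
    {x : Module.End ℂ W} (hx : x ∈ Algebra.adjoin R (Set.range A))
    (hR : ∀ r : R, ∃ c : ℂ, algebraMap R (Module.End ℂ W) r = c • 1) (χ : ι → ℂ) :
    ∃ c : ℂ, ∀ v : W, (∀ i, A i v = χ i • v) → x v = c • v := by
  induction hx using Algebra.adjoin_induction with
  | mem x hx =>
    obtain ⟨i, rfl⟩ := hx
    exact ⟨χ i, fun v hv => hv i⟩
  | algebraMap r =>
    obtain ⟨c, hc⟩ := hR r
    exact ⟨c, fun v _ => by rw [hc]; simp⟩
  | add x y _ _ hx hy =>
    obtain ⟨c, hc⟩ := hx
    obtain ⟨d, hd⟩ := hy
    exact ⟨c + d, fun v hv => by rw [LinearMap.add_apply, hc v hv, hd v hv, add_smul]⟩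
  | mul x y _ _ hx hy =>
    obtain ⟨c, hc⟩ := hx
    obtain ⟨d, hd⟩ := hy
    exact ⟨c * d, fun v hv => by
      rw [Module.End.mul_apply, hd v hv, map_smul, hc v hv, smul_smul, mul_comm]⟩

/-- **the algebra generated by commuting diagonalisable operators is reduced** -/
theorem eq_zero_of_isNilpotent {R : Type*} [CommRing R] [Algebra R (Module.End ℂ W)]
    (hR : ∀ r : R, ∃ c : ℂ, algebraMap R (Module.End ℂ W) r = c • 1)
    (hc : ∀ i j, Commute (A i) (A j)) (hd : ∀ i, Diag (A i))
    {x : Module.End ℂ W} (hx : x ∈ Algebra.adjoin R (Set.range A)) (hn : IsNilpotent x) : x = 0 := by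
  apply LinearMap.ext
  intro v
  rw [LinearMap.zero_apply]
  refine induction_eigenvectors hc hd (P := fun v => x v = 0) (map_zero x) (fun a b ha hb => by
    rw [map_add, ha, hb, add_zero]) (fun χ w hw => ?_) v
  obtain ⟨c, hcv⟩ := exists_scalar_of_mem_adjoin hx hR χ
  obtain ⟨k, hk⟩ := hn
  have h1 : ∀ n : ℕ, (x ^ n) w = c ^ n • w := by
    intro n
    induction n with
    | zero => simp
    | succ n ih => rw [pow_succ', Module.End.mul_apply, ih, map_smul, hcv w hw, smul_smul, pow_succ]
  have h2 := h1 k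
  rw [hk, LinearMap.zero_apply] at h2
  rcases smul_eq_zero.mp h2.symm with h3 | h3
  · have h4 : c = 0 := by
      by_contra h5
      exact pow_ne_zero k h5 h3
    rw [hcv w hw, h4, zero_smul]
  · rw [h3, map_zero]

end Fermat.Agent.LTF.Pet
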