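import Fermat.Agent.LTF.Pet.Inner
import Fermat.Agent.Oldforms.Trace

/-!
# Hecke operators away from the level and Atkin-Lehner operators are self-adjoint
(LTFREE, Petersson (P2))
-/

set_option autoImplicit false

noncomputable section

open MeasureTheory UpperHalfPlane CongruenceSubgroup Matrix.SpecialLinearGroup
open FermatAgent.HeckeEigen
open Fermat.Agent.HeckePar Fermat.Agent.Oldforms
open scoped ENNReal MatrixGroups Modular ModularForm ComplexConjugate Pointwise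

namespace Fermat.Agent.LTF.Pet

/-- integral matrices are rational -/
theorem mem_RatGL_of_int {A : GL (Fin 2) ℝ} {a : Matrix (Fin 2) (Fin 2) ℤ}
    (hA : (A : Matrix (Fin 2) (Fin 2) ℝ) = a.map (Int.cast)) : A ∈ RatGL := by
  have hdet : a.det ≠ 0 := by
    intro h0
    have h1 : (A : Matrix (Fin 2) (Fin 2) ℝ).det ≠ 0 := A.det_ne_zero
    apply h1
    rw [hA]
    have : (a.map (Int.cast) : Matrix (Fin 2) (Fin 2) ℝ).det = ((a.det : ℤ) : ℝ) := by
      rw [Matrix.det_fin_two, Matrix.det_fin_two]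
      simp
    rw [this, h0, Int.cast_zero]
  have hdetQ : (a.map (Int.cast) : Matrix (Fin 2) (Fin 2) ℚ).det ≠ 0 := by
    have : (a.map (Int.cast) : Matrix (Fin 2) (Fin 2) ℚ).det = ((a.det : ℤ) : ℚ) := by
      rw [Matrix.det_fin_two, Matrix.det_fin_two]
      simp
    rw [this]
    exact_mod_cast hdet
  refine ⟨Matrix.GeneralLinearGroup.mkOfDetNeZero _ hdetQ, ?_⟩
  apply Units.ext
  rw [hA]
  ext i j
  simp [Matrix.GeneralLinearGroup.mkOfDetNeZero]

theorem det_of_int {A : GL (Fin 2) ℝ} {a : Matrix (Fin 2) (Fin 2) ℤ}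
    (hA : (A : Matrix (Fin 2) (Fin 2) ℝ) = a.map (Int.cast)) :
    ((A.det : ℝˣ) : ℝ) = ((a.det : ℤ) : ℝ) := by
  rw [Matrix.GeneralLinearGroup.val_det_apply, hA]
  rw [Matrix.det_fin_two, Matrix.det_fin_two]
  simp

theorem mapGL_mem_RatGL (g : SL(2, ℤ)) : mapGL ℝ g ∈ RatGL := mem_RatGL_of_int (val_mapGL g)

theorem det_mapGL_pos (g : SL(2, ℤ)) : (0 : ℝ) < (((mapGL ℝ g).det : ℝˣ) : ℝ) := by
  rw [det_of_int (val_mapGL g)]
  simp

theorem hrep_mem_RatGL {p : ℕ} (hp : p ≠ 0) (x : Option (ZMod p)) : hrep p x ∈ RatGL :=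
  mem_RatGL_of_int (val_hrep hp x)

theorem det_hrep_pos {p : ℕ} (hp : p ≠ 0) (x : Option (ZMod p)) :
    (0 : ℝ) < (((hrep p x).det : ℝˣ) : ℝ) := by
  rw [det_of_int (val_hrep hp x), det_intRep]
  exact_mod_cast Nat.pos_of_ne_zero hp

instance (N : ℕ) [NeZero N] : (Gamma0 N : Subgroup (GL (Fin 2) ℝ)).IsArithmetic := inferInstance

variable {N : ℕ} [NeZero N]

theorem cf (f : CuspForm (Gamma0 N) 2) : CF ⇑f := CF.of (Gamma0 N : Subgroup (GL (Fin 2) ℝ)) f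

theorem slash_eq (f : CuspForm (Gamma0 N) 2) {g : SL(2, ℤ)} (hg : g ∈ Gamma0 N) :
    (⇑f : ℍ → ℂ) ∣[(2 : ℤ)] (mapGL ℝ g) = ⇑f :=
  SlashInvariantFormClass.slash_action_eq f _ ⟨g, hg, rfl⟩

/-- moving elements of `Γ₀(N)` through the product -/
theorem inn_slash_gamma (f g : CuspForm (Gamma0 N) 2) {A B : GL (Fin 2) ℝ} (hB : B ∈ RatGL)
    {γ γ' : SL(2, ℤ)} (hγ : γ ∈ Gamma0 N) (hγ' : γ' ∈ Gamma0 N)
    (h : A = mapGL ℝ γ * B * mapGL ℝ γ') :
    inn ((⇑f : ℍ → ℂ) ∣[(2 : ℤ)] A) ⇑g = inn ((⇑f : ℍ → ℂ) ∣[(2 : ℤ)] B) ⇑g := by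
  rw [h, SlashAction.slash_mul, SlashAction.slash_mul, slash_eq f hγ]
  conv_lhs => rw [← slash_eq g hγ']
  exact inn_slash ((cf f).slash hB) (cf g) (mapGL_mem_RatGL _) (det_mapGL_pos _)

/-- all Hecke representatives give the same product -/
theorem inn_hrep (f g : CuspForm (Gamma0 N) 2) {p : ℕ} (hp : p.Prime) (hpN : ¬ p ∣ N)
    (x : Option (ZMod p)) :
    inn ((⇑f : ℍ → ℂ) ∣[(2 : ℤ)] hrep p x) ⇑g =
      inn ((⇑f : ℍ → ℂ) ∣[(2 : ℤ)] hrep p (some 0)) ⇑g := by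
  have hp0 : p ≠ 0 := hp.ne_zero
  cases x with
  | some j =>
    refine inn_slash_gamma f g (hrep_mem_RatGL hp0 _) (γ := 1) (γ' := ModularGroup.T ^ (j.val : ℤ))
      (one_mem _) ?_ ?_
    · rw [Gamma0_mem, ModularGroup.coe_T_zpow]
      simp
    · rw [map_one, one_mul]
      apply Units.ext
      rw [Units.val_mul, val_hrep hp0, val_hrep hp0, val_mapGL, ← map_intCast_mul]
      congr 1
      rw [intRep_some, intRep_some, ModularGroup.coe_T_zpow]
      ext i j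
      fin_cases i <;> fin_cases j <;> simp [Matrix.mul_apply, Fin.sum_univ_two]
  | none =>
    have hcop : IsCoprime (p : ℤ) (N : ℤ) :=
      Nat.isCoprime_iff_coprime.mpr ((Nat.Prime.coprime_iff_not_dvd hp).mpr hpN)
    obtain ⟨x, y', hxy⟩ := hcop
    -- x * p + y' * N = 1; y = -y'
    set y : ℤ := -y' with hy
    have hdet : (p : ℤ) * x - N * y = 1 := by rw [hy]; linear_combination hxy
    let γ : SL(2, ℤ) := ⟨!![(p : ℤ), -y; -(N : ℤ), x], by
      rw [Matrix.det_fin_two_of]; linear_combination hdet⟩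
    let γ' : SL(2, ℤ) := ⟨!![(p : ℤ) * x, y; (N : ℤ), 1], by
      rw [Matrix.det_fin_two_of]; linear_combination hdet⟩
    refine inn_slash_gamma f g (hrep_mem_RatGL hp0 _) (γ := γ) (γ' := γ') ?_ ?_ ?_
    · rw [Gamma0_mem]; simp [γ]
    · rw [Gamma0_mem]; simp [γ']
    · apply Units.ext
      rw [Units.val_mul, Units.val_mul, val_hrep hp0, val_hrep hp0, val_mapGL, val_mapGL,
        ← map_intCast_mul, ← map_intCast_mul]
      congr 1
      rw [intRep_none, intRep_some]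
      ext i j
      fin_cases i <;> fin_cases j <;> simp [Matrix.mul_apply, Fin.sum_univ_two, γ, γ']
      · linear_combination (-(p : ℤ)) * hdet
      · ring
      · ring
      · linear_combination (-1 : ℤ) * hdet

theorem slash_inv_hrep (f : ℍ → ℂ) {p : ℕ} (hp : p ≠ 0) :
    f ∣[(2 : ℤ)] (hrep p (some 0))⁻¹ = f ∣[(2 : ℤ)] hrep p none := by
  have h : hrep p none = scal p hp * (hrep p (some 0))⁻¹ := by
    rw [eq_mul_inv_iff_mul_eq]
    apply Units.ext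
    rw [Units.val_mul, val_hrep hp, val_hrep hp, val_scal, ← map_intCast_mul]
    congr 1
    ext i j
    fin_cases i <;> fin_cases j <;> simp [Matrix.mul_apply, Fin.sum_univ_two]
  rw [h, SlashAction.slash_mul, slash_scal]

theorem inn_hrep_symm (f g : CuspForm (Gamma0 N) 2) {p : ℕ} (hp : p.Prime) (hpN : ¬ p ∣ N) :
    inn ((⇑f : ℍ → ℂ) ∣[(2 : ℤ)] hrep p (some 0)) ⇑g =
      inn ⇑f ((⇑g : ℍ → ℂ) ∣[(2 : ℤ)] hrep p (some 0)) := by
  have hp0 : p ≠ 0 := hp.ne_zero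
  rw [inn_slash_left (cf f) (cf g) (hrep_mem_RatGL hp0 _) (det_hrep_pos hp0 _),
    slash_inv_hrep _ hp0, inn_symm ((cf g).slash (hrep_mem_RatGL hp0 _)) (cf f),
    inn_hrep g f hp hpN none,
    ← inn_symm ((cf g).slash (hrep_mem_RatGL hp0 _)) (cf f)]

/-- **self-adjointness of the Hecke operators away from the level** -/
theorem inn_heckeOp (p : Nat.Primes) (hpN : ¬ (p : ℕ) ∣ N) (f g : CuspForm (Gamma0 N) 2) :
    inn ⇑(heckeOp N 2 p f) ⇑g = inn ⇑f ⇑(heckeOp N 2 p g) := by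
  haveI : Fact (p : ℕ).Prime := ⟨p.2⟩
  have hp0 : (p : ℕ) ≠ 0 := p.2.ne_zero
  rw [ALData.coe_heckeOp_eq_sum, ALData.coe_heckeOp_eq_sum,
    inn_sum_left _ _ (fun x _ => (cf f).slash (hrep_mem_RatGL hp0 _)) (cf g),
    inn_sum_right _ (cf f) _ (fun x _ => (cf g).slash (hrep_mem_RatGL hp0 _))]
  refine Finset.sum_congr rfl fun x _ => ?_
  rw [inn_hrep f g p.2 hpN x.1, inn_hrep_symm f g p.2 hpN,
    inn_symm ((cf g).slash (hrep_mem_RatGL hp0 x.1)) (cf f), inn_hrep g f p.2 hpN x.1,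
    ← inn_symm ((cf g).slash (hrep_mem_RatGL hp0 _)) (cf f)]

/-- **self-adjointness of the Atkin-Lehner operators** -/
theorem inn_w {M q : ℕ} (D : ALData N M q) (f g : CuspForm (Gamma0 N) 2) :
    inn ⇑(D.w 2 f) ⇑g = inn ⇑f ⇑(D.w 2 g) := by
  conv_lhs => rw [← D.w_w g]
  rw [ALData.coe_w, ALData.coe_w]
  exact inn_slash (cf f) (cf (D.w 2 g)) (mem_RatGL_of_int D.val_W) D.det_W_pos

end Fermat.Agent.LTF.Pet
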