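import Fermat.Agent.LTF.Pet.Hecke
import Fermat.Agent.LTF.Pet2

/-!
# The Petersson form: the instance of `Pet2.PetForm` (LTFREE)
-/

set_option autoImplicit false

noncomputable section

open UpperHalfPlane CongruenceSubgroup Matrix.SpecialLinearGroup
open Fermat.Agent.HeckePar
open scoped MatrixGroups ModularForm ComplexConjugate

namespace Fermat.Agent.LTF.Pet

/-- the space of all weight two cusp forms of all levels -/
def cfSubmodule : Submodule ℂ (ℍ → ℂ) where
  carrier := {f | CF f}
  add_mem' hf hg := hf.add hg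
  zero_mem' := CF.zero
  smul_mem' c _ hf := hf.smul c

/-- rational matrices of positive determinant -/
def RatGLPos : Subgroup (GL (Fin 2) ℝ) where
  carrier := {α | α ∈ RatGL ∧ 0 < (α.det : ℝ)}
  mul_mem' := by
    rintro α β ⟨h1, h2⟩ ⟨h3, h4⟩
    refine ⟨mul_mem h1 h3, ?_⟩
    rw [map_mul, Units.val_mul]
    exact mul_pos h2 h4
  one_mem' := ⟨one_mem _, by rw [map_one, Units.val_one]; exact one_pos⟩
  inv_mem' := by
    rintro α ⟨h1, h2⟩
    refine ⟨inv_mem h1, ?_⟩
    rw [map_inv, Units.val_inv_eq_inv_val]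
    exact inv_pos.mpr h2

/-- **the Petersson form** -/
def petForm : Pet2.PetForm where
  carrier := cfSubmodule
  G := RatGLPos
  P f g := inn g f
  mem_cusp M _ f := cf f
  SL_mem γ := ⟨mapGL_mem_RatGL γ, det_mapGL_pos γ⟩
  diag_mem p hp := ⟨hrep_mem_RatGL hp none, det_hrep_pos hp none⟩
  mem_slash f hf α hα := hf.slash hα.1
  add_left f hf g hg h hh := inn_add_right hh hf hg
  smul_left a f hf h hh := inn_smul_right hh hf a
  conj_symm f hf g hg := (inn_symm hf hg).symm
  inv f hf g hg α hα := inn_slash hg hf hα.1 hα.2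
  nonneg M _ f := inn_self_re_nonneg (cf f)
  definite M _ f h := by
    apply DFunLike.coe_injective
    exact eq_zero_of_inn_self (cf f) h

end Fermat.Agent.LTF.Pet
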