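import Fermat.Agent.LTF.Pet.Mean

/-!
# The Petersson product of weight two cusp forms of arbitrary level (LTFREE, Petersson (P1))
-/

set_option autoImplicit false

noncomputable section

open MeasureTheory UpperHalfPlane
open scoped ENNReal MatrixGroups Modular ModularForm ComplexConjugate Pointwise

namespace Fermat.Agent.LTF.Pet

/-- restriction of a cusp form to a smaller group -/
def restrictCF {Γ Γ' : Subgroup (GL (Fin 2) ℝ)} (h : Γ' ≤ Γ) (F : CuspForm Γ 2) :
    CuspForm Γ' 2 where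
  toFun := ⇑F
  slash_action_eq' γ hγ := SlashInvariantFormClass.slash_action_eq F γ (h hγ)
  holo' := CuspFormClass.holo F
  zero_at_cusps' hc := CuspFormClass.zero_at_cusps F (hc.mono h)

@[simp] theorem coe_restrictCF {Γ Γ' : Subgroup (GL (Fin 2) ℝ)} (h : Γ' ≤ Γ) (F : CuspForm Γ 2) :
    (⇑(restrictCF h F) : ℍ → ℂ) = ⇑F := rfl

/-- weight two cusp forms for some arithmetic group -/
def CF (f : ℍ → ℂ) : Prop :=
  ∃ Γ : Subgroup (GL (Fin 2) ℝ), Γ.IsArithmetic ∧ Γ.HasDetOne ∧ ∃ F : CuspForm Γ 2, (⇑F : ℍ → ℂ) = f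

theorem CF.of (Γ : Subgroup (GL (Fin 2) ℝ)) [Γ.IsArithmetic] [Γ.HasDetOne] (F : CuspForm Γ 2) :
    CF ⇑F := ⟨Γ, inferInstance, inferInstance, F, rfl⟩

theorem CF.exists_common {f g : ℍ → ℂ} (hf : CF f) (hg : CF g) :
    ∃ Γ : Subgroup (GL (Fin 2) ℝ), Γ.IsArithmetic ∧ Γ.HasDetOne ∧
      (∃ F : CuspForm Γ 2, (⇑F : ℍ → ℂ) = f) ∧ ∃ G : CuspForm Γ 2, (⇑G : ℍ → ℂ) = g := by
  obtain ⟨Γ, a, b, F, rfl⟩ := hf
  obtain ⟨Γ', a', b', G, rfl⟩ := hg
  exact ⟨Γ ⊓ Γ', inferInstance, inferInstance, ⟨restrictCF inf_le_left F, rfl⟩,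
    ⟨restrictCF inf_le_right G, rfl⟩⟩

theorem CF.add {f g : ℍ → ℂ} (hf : CF f) (hg : CF g) : CF (f + g) := by
  obtain ⟨Γ, a, b, ⟨F, rfl⟩, ⟨G, rfl⟩⟩ := hf.exists_common hg
  exact ⟨Γ, a, b, F + G, rfl⟩

theorem CF.smul {f : ℍ → ℂ} (hf : CF f) (c : ℂ) : CF (c • f) := by
  obtain ⟨Γ, a, b, F, rfl⟩ := hf
  exact ⟨Γ, a, b, c • F, rfl⟩

theorem CF.zero : CF (0 : ℍ → ℂ) := ⟨𝒮ℒ, inferInstance, inferInstance, 0, rfl⟩

theorem CF.sum {ι : Type*} (s : Finset ι) (f : ι → ℍ → ℂ) (hf : ∀ i ∈ s, CF (f i)) :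
    CF (∑ i ∈ s, f i) := by
  classical
  induction s using Finset.induction_on with
  | empty => rw [Finset.sum_empty]; exact CF.zero
  | insert a s ha ih =>
    rw [Finset.sum_insert ha]
    exact (hf a (Finset.mem_insert_self _ _)).add (ih fun i hi => hf i (Finset.mem_insert_of_mem hi))

theorem CF.slash {f : ℍ → ℂ} (hf : CF f) {α : GL (Fin 2) ℝ} (hα : α ∈ RatGL) :
    CF (f ∣[(2 : ℤ)] α) := by
  obtain ⟨Γ, a, b, F, rfl⟩ := hf
  haveI : (ConjAct.toConjAct α⁻¹ • Γ).IsArithmetic := conj_isArithmetic (inv_mem hα) Γ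
  exact ⟨ConjAct.toConjAct α⁻¹ • Γ, this, inferInstance, CuspForm.translate F α, rfl⟩

theorem CF.continuous {f : ℍ → ℂ} (hf : CF f) : Continuous f := by
  obtain ⟨Γ, a, b, F, rfl⟩ := hf
  exact (CuspFormClass.holo F).continuous

theorem CF.ai {f g : ℍ → ℂ} (hf : CF f) (hg : CF g) : AI (petersson 2 f g) := by
  obtain ⟨Γ, a, b, ⟨F, rfl⟩, ⟨G, rfl⟩⟩ := hf.exists_common hg
  refine ⟨(petersson_continuous 2 hf.continuous hg.continuous).measurable,
    CuspFormClass.petersson_bounded_left 2 Γ F G, ⟨Γ, a, fun γ hγ z => ?_⟩⟩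
  exact SlashInvariantFormClass.petersson_smul hγ

/-- the Petersson product -/
def inn (f g : ℍ → ℂ) : ℂ := Mean (petersson 2 f g)

theorem inn_add_right {f g g' : ℍ → ℂ} (hf : CF f) (hg : CF g) (hg' : CF g') :
    inn f (g + g') = inn f g + inn f g' := by
  unfold inn
  rw [← Mean_add (hf.ai hg) (hf.ai hg')]
  congr 1
  ext z
  simp only [petersson, Pi.add_apply]
  ring

theorem inn_add_left {f f' g : ℍ → ℂ} (hf : CF f) (hf' : CF f') (hg : CF g) :
    inn (f + f') g = inn f g + inn f' g := by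
  unfold inn
  rw [← Mean_add (hf.ai hg) (hf'.ai hg)]
  congr 1
  ext z
  simp only [petersson, Pi.add_apply, map_add]
  ring

theorem inn_smul_right {f g : ℍ → ℂ} (hf : CF f) (hg : CF g) (c : ℂ) :
    inn f (c • g) = c * inn f g := by
  unfold inn
  rw [← Mean_smul (hf.ai hg)]
  congr 1
  ext z
  simp only [petersson, Pi.smul_apply, smul_eq_mul]
  ring

theorem inn_smul_left {f g : ℍ → ℂ} (hf : CF f) (hg : CF g) (c : ℂ) :
    inn (c • f) g = conj c * inn f g := by
  unfold inn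
  rw [← Mean_smul (hf.ai hg)]
  congr 1
  ext z
  simp only [petersson, Pi.smul_apply, smul_eq_mul, map_mul]
  ring

theorem inn_symm {f g : ℍ → ℂ} (hf : CF f) (hg : CF g) : inn g f = conj (inn f g) := by
  unfold inn
  rw [← Mean_star (hf.ai hg)]
  congr 1
  ext z
  exact petersson_symm 2 f g z

theorem inn_zero_right (f : ℍ → ℂ) : inn f 0 = 0 := by
  unfold inn
  have : petersson 2 f 0 = 0 := by
    ext z
    simp [petersson]
  rw [this, Mean_zero]

theorem inn_zero_left (g : ℍ → ℂ) : inn 0 g = 0 := by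
  unfold inn
  have : petersson 2 0 g = 0 := by
    ext z
    simp [petersson]
  rw [this, Mean_zero]

theorem inn_sum_left {ι : Type*} (s : Finset ι) (f : ι → ℍ → ℂ) (hf : ∀ i ∈ s, CF (f i))
    {g : ℍ → ℂ} (hg : CF g) : inn (∑ i ∈ s, f i) g = ∑ i ∈ s, inn (f i) g := by
  classical
  induction s using Finset.induction_on with
  | empty => rw [Finset.sum_empty, Finset.sum_empty, inn_zero_left]
  | insert a s ha ih =>
    rw [Finset.sum_insert ha, Finset.sum_insert ha,
      inn_add_left (hf a (Finset.mem_insert_self _ _))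
        (CF.sum s f fun i hi => hf i (Finset.mem_insert_of_mem hi)) hg,
      ih fun i hi => hf i (Finset.mem_insert_of_mem hi)]

theorem inn_sum_right {ι : Type*} (s : Finset ι) {f : ℍ → ℂ} (hf : CF f) (g : ι → ℍ → ℂ)
    (hg : ∀ i ∈ s, CF (g i)) : inn f (∑ i ∈ s, g i) = ∑ i ∈ s, inn f (g i) := by
  classical
  induction s using Finset.induction_on with
  | empty => rw [Finset.sum_empty, Finset.sum_empty, inn_zero_right]
  | insert a s ha ih =>
    rw [Finset.sum_insert ha, Finset.sum_insert ha,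
      inn_add_right hf (hg a (Finset.mem_insert_self _ _))
        (CF.sum s g fun i hi => hg i (Finset.mem_insert_of_mem hi)),
      ih fun i hi => hg i (Finset.mem_insert_of_mem hi)]

/-- **invariance of the Petersson product** under rational matrices of positive determinant -/
theorem inn_slash {f g : ℍ → ℂ} (hf : CF f) (hg : CF g) {α : GL (Fin 2) ℝ} (hα : α ∈ RatGL)
    (hdet : 0 < (α.det : ℝ)) : inn (f ∣[(2 : ℤ)] α) (g ∣[(2 : ℤ)] α) = inn f g := by
  unfold inn
  rw [← ((hf.ai hg).translate hα).2]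
  congr 1
  ext z
  rw [petersson_slash]
  have : σ α = ContinuousAlgEquiv.refl ℝ ℂ := by
    unfold σ
    rw [if_pos hdet]
  rw [this]
  simp

theorem inn_slash_left {f g : ℍ → ℂ} (hf : CF f) (hg : CF g) {α : GL (Fin 2) ℝ} (hα : α ∈ RatGL)
    (hdet : 0 < (α.det : ℝ)) : inn (f ∣[(2 : ℤ)] α) g = inn f (g ∣[(2 : ℤ)] α⁻¹) := by
  have := inn_slash hf (hg.slash (inv_mem hα)) hα hdet
  rw [← this, ← SlashAction.slash_mul, inv_mul_cancel, SlashAction.slash_one]

theorem petersson_self (f : ℍ → ℂ) (z : ℍ) :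
    petersson 2 f f z = ((Complex.normSq (f z) * z.im ^ 2 : ℝ) : ℂ) := by
  simp only [petersson, Complex.ofReal_mul, Complex.ofReal_pow, Complex.normSq_eq_conj_mul_self]
  norm_cast

theorem petersson_self_pos (f : ℍ → ℂ) (z : ℍ) :
    0 ≤ (petersson 2 f f z).re ∧ (petersson 2 f f z).im = 0 := by
  rw [petersson_self]
  exact ⟨by rw [Complex.ofReal_re]; exact mul_nonneg (Complex.normSq_nonneg _) (sq_nonneg _),
    Complex.ofReal_im _⟩

/-- positivity -/
theorem inn_self_re_nonneg {f : ℍ → ℂ} (hf : CF f) : 0 ≤ (inn f f).re := by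
  exact Mean_nonneg (hf.ai hf) fun z => petersson_self_pos f z

theorem eq_zero_of_inn_self {f : ℍ → ℂ} (hf : CF f) (h : inn f f = 0) : f = 0 := by
  have h1 := eq_zero_of_Mean (petersson_continuous 2 hf.continuous hf.continuous) (hf.ai hf)
    (petersson_self_pos f) h
  · ext z
    have := congrFun h1 z
    simp only [petersson, Pi.zero_apply, mul_eq_zero, map_eq_zero, or_self] at this
    rcases this with h2 | h2
    · simpa using h2
    · exfalso
      simp [z.im_ne_zero] at h2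

end Fermat.Agent.LTF.Pet
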