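import Fermat.Agent.LTF.Pet.Domain
import Mathlib.NumberTheory.ModularForms.Bounds

/-!
# The mean of an arithmetic function and the Petersson product (LTFREE, Petersson (P1))
-/

set_option autoImplicit false

noncomputable section

open MeasureTheory UpperHalfPlane
open scoped ENNReal MatrixGroups Modular ModularForm ComplexConjugate Pointwise

namespace Fermat.Agent.LTF.Pet

/-- `h` is invariant under `Γ` -/
def FInv (Γ : Subgroup (GL (Fin 2) ℝ)) (h : ℍ → ℂ) : Prop := ∀ γ ∈ Γ, ∀ z : ℍ, h (γ • z) = h z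

/-- the mean of a function w.r.t. an arithmetic group -/
def mean (Γ : Subgroup (GL (Fin 2) ℝ)) [Γ.IsArithmetic] (h : ℍ → ℂ) : ℂ := ∫ z, h z ∂(pr Γ)

theorem FInv.inv {Γ : Subgroup (GL (Fin 2) ℝ)} {h : ℍ → ℂ} (hh : FInv Γ h) (B : Set ℂ) :
    Inv Γ (h ⁻¹' B) := fun γ hγ z => by
  simp only [Set.mem_preimage, hh γ hγ z]

theorem mean_eq {Γ Γ' : Subgroup (GL (Fin 2) ℝ)} [Γ.IsArithmetic] [Γ'.IsArithmetic] {h : ℍ → ℂ}
    (hm : Measurable h) (h1 : FInv Γ h) (h2 : FInv Γ' h) : mean Γ h = mean Γ' h :=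
  integral_congr_of_preimage hm hm fun B hB => pr_eq_pr (hm hB) (h1.inv B) (h2.inv B)

theorem mean_translate {Γ Γ' : Subgroup (GL (Fin 2) ℝ)} [Γ.IsArithmetic] [Γ'.IsArithmetic]
    {h : ℍ → ℂ} (hm : Measurable h) (h1 : FInv Γ h) (g : GL (Fin 2) ℝ)
    (hg : ∀ x : GL (Fin 2) ℝ, x ∈ Γ' ↔ g * x * g⁻¹ ∈ Γ) :
    mean Γ' (fun z => h (g • z)) = mean Γ h :=
  integral_congr_of_preimage (hm.comp (measurable_const_smul g)) hm fun B hB => by
    have := pr_translate g hg (hm hB) (h1.inv B)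
    exact this

open Classical in
/-- the mean of a function invariant under some arithmetic group -/
def Mean (h : ℍ → ℂ) : ℂ :=
  if H : ∃ Γ : Subgroup (GL (Fin 2) ℝ), Γ.IsArithmetic ∧ FInv Γ h then
    @mean H.choose H.choose_spec.1 h else 0

theorem Mean_eq (Γ : Subgroup (GL (Fin 2) ℝ)) [Γ.IsArithmetic] {h : ℍ → ℂ} (hm : Measurable h)
    (hinv : FInv Γ h) : Mean h = mean Γ h := by
  have H : ∃ Γ : Subgroup (GL (Fin 2) ℝ), Γ.IsArithmetic ∧ FInv Γ h := ⟨Γ, inferInstance, hinv⟩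
  unfold Mean
  rw [dif_pos H]
  haveI := H.choose_spec.1
  exact mean_eq hm H.choose_spec.2 hinv

/-- arithmetic functions: bounded, measurable, invariant under some arithmetic group -/
structure AI (h : ℍ → ℂ) : Prop where
  meas : Measurable h
  bdd : ∃ C : ℝ, ∀ z, ‖h z‖ ≤ C
  inv : ∃ Γ : Subgroup (GL (Fin 2) ℝ), Γ.IsArithmetic ∧ FInv Γ h

theorem AI.integrable {h : ℍ → ℂ} (hh : AI h) (Γ : Subgroup (GL (Fin 2) ℝ)) [Γ.IsArithmetic] :
    Integrable h (pr Γ) := by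
  obtain ⟨C, hC⟩ := hh.bdd
  exact Integrable.of_bound hh.meas.aestronglyMeasurable C (Filter.Eventually.of_forall hC)

theorem AI.exists_common {h h' : ℍ → ℂ} (hh : AI h) (hh' : AI h') :
    ∃ Γ : Subgroup (GL (Fin 2) ℝ), Γ.IsArithmetic ∧ FInv Γ h ∧ FInv Γ h' := by
  obtain ⟨Γ, a, hΓ⟩ := hh.inv
  obtain ⟨Γ', a', hΓ'⟩ := hh'.inv
  exact ⟨Γ ⊓ Γ', inferInstance, fun γ hγ z => hΓ γ hγ.1 z, fun γ hγ z => hΓ' γ hγ.2 z⟩

theorem AI.add {h h' : ℍ → ℂ} (hh : AI h) (hh' : AI h') : AI (h + h') := by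
  obtain ⟨Γ, a, h1, h2⟩ := hh.exists_common hh'
  obtain ⟨C, hC⟩ := hh.bdd
  obtain ⟨C', hC'⟩ := hh'.bdd
  exact ⟨hh.meas.add hh'.meas, ⟨C + C', fun z => (norm_add_le _ _).trans (add_le_add (hC z) (hC' z))⟩,
    ⟨Γ, a, fun γ hγ z => by simp only [Pi.add_apply, h1 γ hγ z, h2 γ hγ z]⟩⟩

theorem AI.smul {h : ℍ → ℂ} (hh : AI h) (c : ℂ) : AI (c • h) := by
  obtain ⟨Γ, a, h1⟩ := hh.inv
  obtain ⟨C, hC⟩ := hh.bdd
  exact ⟨hh.meas.const_smul c, ⟨‖c‖ * C, fun z => by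
    simp only [Pi.smul_apply, norm_smul]
    exact mul_le_mul_of_nonneg_left (hC z) (norm_nonneg _)⟩,
    ⟨Γ, a, fun γ hγ z => by simp only [Pi.smul_apply, h1 γ hγ z]⟩⟩

theorem AI.star {h : ℍ → ℂ} (hh : AI h) : AI (fun z => conj (h z)) := by
  obtain ⟨Γ, a, h1⟩ := hh.inv
  obtain ⟨C, hC⟩ := hh.bdd
  exact ⟨Complex.continuous_conj.measurable.comp hh.meas, ⟨C, fun z => by
    rw [Complex.norm_conj]; exact hC z⟩, ⟨Γ, a, fun γ hγ z => by simp only [h1 γ hγ z]⟩⟩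

theorem AI.zero : AI (0 : ℍ → ℂ) :=
  ⟨measurable_zero, ⟨0, fun z => by simp⟩, ⟨𝒮ℒ, inferInstance, fun _ _ _ => rfl⟩⟩

theorem Mean_add {h h' : ℍ → ℂ} (hh : AI h) (hh' : AI h') : Mean (h + h') = Mean h + Mean h' := by
  obtain ⟨Γ, a, h1, h2⟩ := hh.exists_common hh'
  rw [Mean_eq Γ hh.meas h1, Mean_eq Γ hh'.meas h2,
    Mean_eq Γ (hh.meas.add hh'.meas) (fun γ hγ z => by simp only [Pi.add_apply, h1 γ hγ z, h2 γ hγ z])]
  exact integral_add (hh.integrable Γ) (hh'.integrable Γ)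

theorem Mean_smul {h : ℍ → ℂ} (hh : AI h) (c : ℂ) : Mean (c • h) = c * Mean h := by
  obtain ⟨Γ, a, h1⟩ := hh.inv
  rw [Mean_eq Γ hh.meas h1,
    Mean_eq Γ (hh.meas.const_smul c) (fun γ hγ z => by simp only [Pi.smul_apply, h1 γ hγ z])]
  exact integral_const_mul c h

theorem Mean_star {h : ℍ → ℂ} (hh : AI h) : Mean (fun z => conj (h z)) = conj (Mean h) := by
  obtain ⟨Γ, a, h1⟩ := hh.inv
  rw [Mean_eq Γ hh.meas h1, Mean_eq Γ hh.star.meas (fun γ hγ z => by simp only [h1 γ hγ z])]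
  exact integral_conj

theorem Mean_zero : Mean (0 : ℍ → ℂ) = 0 := by
  rw [Mean_eq 𝒮ℒ measurable_zero (fun _ _ _ => rfl)]
  simp [mean]

theorem AI.sum {ι : Type*} (s : Finset ι) (h : ι → ℍ → ℂ) (hh : ∀ i ∈ s, AI (h i)) :
    AI (∑ i ∈ s, h i) := by
  classical
  induction s using Finset.induction_on with
  | empty => rw [Finset.sum_empty]; exact AI.zero
  | insert a s ha ih =>
    rw [Finset.sum_insert ha]
    exact (hh a (Finset.mem_insert_self _ _)).add (ih fun i hi => hh i (Finset.mem_insert_of_mem hi))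

theorem Mean_sum {ι : Type*} (s : Finset ι) (h : ι → ℍ → ℂ) (hh : ∀ i ∈ s, AI (h i)) :
    Mean (∑ i ∈ s, h i) = ∑ i ∈ s, Mean (h i) := by
  classical
  induction s using Finset.induction_on with
  | empty => rw [Finset.sum_empty, Finset.sum_empty]; exact Mean_zero
  | insert a s ha ih =>
    rw [Finset.sum_insert ha, Finset.sum_insert ha,
      Mean_add (hh a (Finset.mem_insert_self _ _))
        (AI.sum s h fun i hi => hh i (Finset.mem_insert_of_mem hi)),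
      ih fun i hi => hh i (Finset.mem_insert_of_mem hi)]

/-! ### rational matrices -/

/-- rational matrices in `GL₂(ℝ)` -/
def RatGL : Subgroup (GL (Fin 2) ℝ) := (Matrix.GeneralLinearGroup.map (Rat.castHom ℝ)).range

theorem conj_isArithmetic {g : GL (Fin 2) ℝ} (hg : g ∈ RatGL) (Γ : Subgroup (GL (Fin 2) ℝ))
    [Γ.IsArithmetic] : (ConjAct.toConjAct g • Γ).IsArithmetic := by
  obtain ⟨g, rfl⟩ := hg
  exact Subgroup.IsArithmetic.conj Γ g

theorem AI.translate {h : ℍ → ℂ} (hh : AI h) {g : GL (Fin 2) ℝ} (hg : g ∈ RatGL) :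
    AI (fun z => h (g • z)) ∧ Mean (fun z => h (g • z)) = Mean h := by
  obtain ⟨Γ, a, h1⟩ := hh.inv
  obtain ⟨C, hC⟩ := hh.bdd
  haveI : (ConjAct.toConjAct g⁻¹ • Γ).IsArithmetic := conj_isArithmetic (inv_mem hg) Γ
  have hmem : ∀ x : GL (Fin 2) ℝ, x ∈ ConjAct.toConjAct g⁻¹ • Γ ↔ g * x * g⁻¹ ∈ Γ := by
    intro x
    rw [Subgroup.mem_pointwise_smul_iff_inv_smul_mem, ← map_inv, inv_inv, ConjAct.smul_def]
    simp
  have hinv : FInv (ConjAct.toConjAct g⁻¹ • Γ) (fun z => h (g • z)) := by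
    intro γ hγ z
    have := h1 _ ((hmem γ).mp hγ) (g • z)
    rw [smul_smul, inv_mul_cancel_right, ← smul_smul] at this
    exact this
  refine ⟨⟨hh.meas.comp (measurable_const_smul g), ⟨C, fun z => hC _⟩, ⟨_, this, hinv⟩⟩, ?_⟩
  rw [Mean_eq Γ hh.meas h1, Mean_eq (h := fun z => h (g • z)) _
    (hh.meas.comp (measurable_const_smul g)) hinv]
  exact mean_translate hh.meas h1 g hmem

/-! ### positivity -/

theorem eq_zero_of_Mean {h : ℍ → ℂ} (hc : Continuous h) (hh : AI h)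
    (hpos : ∀ z, 0 ≤ (h z).re ∧ (h z).im = 0) (h0 : Mean h = 0) : h = 0 := by
  obtain ⟨Γ, a, h1⟩ := hh.inv
  rw [Mean_eq Γ hh.meas h1] at h0
  have hre : ∫ z, (h z).re ∂(pr Γ) = 0 := by
    have : ∫ z, (h z).re ∂(pr Γ) = (∫ z, h z ∂(pr Γ)).re := by
      exact integral_re (hh.integrable Γ)
    rw [this]
    exact congrArg Complex.re h0
  have hint : Integrable (fun z => (h z).re) (pr Γ) := (hh.integrable Γ).re
  have h2 := (integral_eq_zero_iff_of_nonneg (fun z => (hpos z).1) hint).mp hre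
  let S : Set ℍ := {z | h z ≠ 0}
  have hSo : IsOpen S := isOpen_ne_fun hc continuous_const
  have hS0 : pr Γ S = 0 := by
    rw [Filter.EventuallyEq, ae_iff] at h2
    refine measure_mono_null ?_ h2
    intro z hz hz'
    exact hz (Complex.ext hz' (hpos z).2)
  have hSinv : Inv Γ S := by
    intro γ hγ z
    simp only [S, Set.mem_setOf_eq, h1 γ hγ z]
  have h3 := volume_eq_zero_of_pr hSo.measurableSet hSinv hS0
  by_contra hne
  obtain ⟨z, hz⟩ := Function.ne_iff.mp hne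
  exact volume_pos_of_isOpen hSo ⟨z, hz⟩ h3

theorem Mean_nonneg {h : ℍ → ℂ} (hh : AI h) (hpos : ∀ z, 0 ≤ (h z).re ∧ (h z).im = 0) :
    0 ≤ (Mean h).re := by
  obtain ⟨Γ, a, h1⟩ := hh.inv
  rw [Mean_eq Γ hh.meas h1]
  have : ∫ z, (h z).re ∂(pr Γ) = (∫ z, h z ∂(pr Γ)).re := integral_re (hh.integrable Γ)
  unfold mean
  rw [← this]
  exact integral_nonneg fun z => (hpos z).1

end Fermat.Agent.LTF.Pet
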