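import Fermat.Agent.LTF.Pet.Form
import Fermat.Agent.LTF.Pet.Diag

/-!
# Unconditional semisimplicity of the Hecke algebra in weight two (LTFREE, Petersson (P2))
-/

set_option autoImplicit false

noncomputable section

open UpperHalfPlane CongruenceSubgroup
open scoped MatrixGroups ModularForm

namespace Fermat.Agent.LTF.Pet

/-- the Hecke algebra generated by the `T_ℓ`, `ℓ ∉ S ⊇ {primes dividing M}`, is reduced -/
theorem isReduced_heckeAlgebra (M : ℕ) [NeZero M] {S : Set ℕ}
    (hS : ∀ q : ℕ, q.Prime → q ∣ M → q ∈ S) : IsReduced (CuspForm.heckeAlgebra M 2 S) :=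
  petForm.isReduced_heckeAlgebra hS

end Fermat.Agent.LTF.Pet
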