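import Mathlib.MeasureTheory.Group.Action
import Mathlib.MeasureTheory.Group.FundamentalDomain
import Mathlib.MeasureTheory.Integral.Bochner.Basic
import Mathlib.GroupTheory.Index
import Mathlib.GroupTheory.Coset.Basic

/-!
# Weights for group actions and the mean of an invariant function (LTFREE, Petersson (P1))
-/

set_option autoImplicit false

noncomputable section

open MeasureTheory
open scoped ENNReal

namespace Fermat.Agent.LTF.Pet

variable {G X : Type*} [Group G] [MulAction G X] [MeasurableSpace X]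

/-- a `Γ`-weight: a nonnegative integrable function whose sum over `Γ`-orbits is constant. -/
structure IsWt (μ : Measure X) (Γ : Subgroup G) (ρ : X → ℝ≥0∞) (c : ℝ≥0∞) : Prop where
  meas : Measurable ρ
  fin : ∫⁻ x, ρ x ∂μ ≠ ∞
  c0 : c ≠ 0
  ctop : c ≠ ∞
  sum : ∀ x, ∑' γ : Γ, ρ ((γ : G) • x) = c

variable {μ : Measure X} {Γ Γ' : Subgroup G} {ρ ρ₁ ρ₂ : X → ℝ≥0∞} {c c₁ c₂ : ℝ≥0∞}

theorem IsWt.sum_inv (h : IsWt μ Γ ρ c) (x : X) : ∑' γ : Γ, ρ (((γ : G)⁻¹) • x) = c := by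
  rw [← h.sum x, ← (Equiv.inv Γ).tsum_eq]
  simp

theorem IsWt.lt_top (h : IsWt μ Γ ρ c) (x : X) : ρ x ≠ ∞ := by
  have h1 : ρ (((1 : Γ) : G) • x) ≤ ∑' γ : Γ, ρ ((γ : G) • x) :=
    ENNReal.le_tsum (f := fun γ : Γ => ρ ((γ : G) • x)) 1
  rw [h.sum x] at h1
  simp only [OneMemClass.coe_one, one_smul] at h1
  exact ne_top_of_le_ne_top h.ctop h1

theorem IsWt.measure_univ_ne_top (h : IsWt μ Γ ρ c) : μ.withDensity ρ Set.univ ≠ ∞ := by
  rw [withDensity_apply _ MeasurableSet.univ, Measure.restrict_univ]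
  exact h.fin

variable [MeasurableConstSMul G X] [SMulInvariantMeasure G X μ]

omit [MeasurableConstSMul G X] [SMulInvariantMeasure G X μ] in
theorem tsum_congr' {ι : Type*} {f g : ι → ℝ≥0∞} (h : ∀ i, f i = g i) : ∑' i, f i = ∑' i, g i :=
  tsum_congr h

theorem lintegral_smul' {f : X → ℝ≥0∞} (hf : Measurable f) (g : G) :
    ∫⁻ x, f (g • x) ∂μ = ∫⁻ x, f x ∂μ :=
  (measurePreserving_smul g μ).lintegral_comp hf

theorem IsWt.eq (h₁ : IsWt μ Γ ρ₁ c₁) (h₂ : IsWt μ Γ ρ₂ c₂) [Countable Γ] {S : Set X}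
    (hS : MeasurableSet S) (hinv : ∀ γ ∈ Γ, ∀ x, γ • x ∈ S ↔ x ∈ S) :
    c₂ * μ.withDensity ρ₁ S = c₁ * μ.withDensity ρ₂ S := by
  rw [withDensity_apply _ hS, withDensity_apply _ hS, ← lintegral_indicator hS,
    ← lintegral_indicator hS]
  have hm1 := h₁.meas
  have hm2 := h₂.meas
  have hms : ∀ g : G, Measurable (fun x : X => g • x) := fun g => measurable_const_smul g
  calc c₂ * ∫⁻ x, S.indicator ρ₁ x ∂μ
      = ∫⁻ x, ∑' γ : Γ, S.indicator ρ₁ x * ρ₂ ((γ : G) • x) ∂μ := by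
        rw [← lintegral_const_mul _ (hm1.indicator hS)]
        refine lintegral_congr fun x => ?_
        rw [ENNReal.tsum_mul_left, h₂.sum x, mul_comm]
    _ = ∑' γ : Γ, ∫⁻ x, S.indicator ρ₁ x * ρ₂ ((γ : G) • x) ∂μ :=
        lintegral_tsum fun γ => ((hm1.indicator hS).mul (hm2.comp (hms _))).aemeasurable
    _ = ∑' γ : Γ, ∫⁻ x, S.indicator ρ₂ x * ρ₁ (((γ : G)⁻¹) • x) ∂μ := by
        refine tsum_congr fun γ => ?_
        rw [← lintegral_smul' (μ := μ) (f := fun x => S.indicator ρ₂ x * ρ₁ (((γ : G)⁻¹) • x))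
          ((hm2.indicator hS).mul (hm1.comp (hms _))) (γ : G)]
        refine lintegral_congr fun x => ?_
        rw [inv_smul_smul]
        by_cases hx : x ∈ S
        · rw [Set.indicator_of_mem hx, Set.indicator_of_mem ((hinv _ γ.2 x).mpr hx), mul_comm]
        · rw [Set.indicator_of_notMem hx,
            Set.indicator_of_notMem (fun h => hx ((hinv _ γ.2 x).mp h)), zero_mul, zero_mul]
    _ = ∫⁻ x, ∑' γ : Γ, S.indicator ρ₂ x * ρ₁ (((γ : G)⁻¹) • x) ∂μ :=
        (lintegral_tsum fun γ => ((hm2.indicator hS).mul (hm1.comp (hms _))).aemeasurable).symm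
    _ = c₁ * ∫⁻ x, S.indicator ρ₂ x ∂μ := by
        rw [← lintegral_const_mul _ (hm2.indicator hS)]
        refine lintegral_congr fun x => ?_
        rw [ENNReal.tsum_mul_left, h₁.sum_inv x, mul_comm]

theorem IsWt.measure_univ_ne_zero (h : IsWt μ Γ ρ c) [Countable Γ] (hμ : μ ≠ 0) :
    μ.withDensity ρ Set.univ ≠ 0 := by
  intro h0
  have hms : ∀ g : G, Measurable (fun x : X => g • x) := fun g => measurable_const_smul g
  rw [withDensity_apply _ MeasurableSet.univ, Measure.restrict_univ] at h0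
  have h1 : ∫⁻ _x, c ∂μ = 0 := by
    have : ∫⁻ _x, c ∂μ = ∫⁻ x, ∑' γ : Γ, ρ ((γ : G) • x) ∂μ :=
      lintegral_congr fun x => (h.sum x).symm
    rw [this, lintegral_tsum (f := fun (γ : Γ) x => ρ ((γ : G) • x))
      fun γ => (h.meas.comp (hms _)).aemeasurable]
    rw [ENNReal.tsum_eq_zero]
    intro γ
    rw [lintegral_smul' h.meas (γ : G)]
    exact h0
  rw [lintegral_const, mul_eq_zero] at h1
  rcases h1 with h1 | h1
  · exact h.c0 h1
  · exact hμ (Measure.measure_univ_eq_zero.mp h1)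

/-- a.e. statements for the weight measure and invariant sets -/
theorem IsWt.ae (h : IsWt μ Γ ρ c) [Countable Γ] {S : Set X}
    (hS : MeasurableSet S) (hinv : ∀ γ ∈ Γ, ∀ x, γ • x ∈ S ↔ x ∈ S)
    (h0 : μ.withDensity ρ S = 0) : μ S = 0 := by
  have hms : ∀ g : G, Measurable (fun x : X => g • x) := fun g => measurable_const_smul g
  rw [withDensity_apply _ hS, ← lintegral_indicator hS] at h0
  have h1 : ∫⁻ x, S.indicator (fun _ => c) x ∂μ = 0 := by
    have : ∫⁻ x, S.indicator (fun _ => c) x ∂μ =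
        ∫⁻ x, ∑' γ : Γ, S.indicator ρ ((γ : G) • x) ∂μ := by
      refine lintegral_congr fun x => ?_
      by_cases hx : x ∈ S
      · rw [Set.indicator_of_mem hx, ← h.sum x]
        exact tsum_congr fun γ => (Set.indicator_of_mem ((hinv _ γ.2 x).mpr hx) _).symm
      · rw [Set.indicator_of_notMem hx, eq_comm, ENNReal.tsum_eq_zero]
        exact fun γ => Set.indicator_of_notMem (fun h => hx ((hinv _ γ.2 x).mp h)) _
    rw [this, lintegral_tsum (f := fun (γ : Γ) x => S.indicator ρ ((γ : G) • x))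
      fun γ => ((h.meas.indicator hS).comp (hms _)).aemeasurable]
    rw [ENNReal.tsum_eq_zero]
    intro γ
    rw [lintegral_smul' (h.meas.indicator hS) (γ : G)]
    exact h0
  rw [lintegral_indicator hS, setLIntegral_const, mul_eq_zero] at h1
  exact h1.resolve_left h.c0

/-- the decomposition of a group into left cosets -/
def cosetEquiv {H : Type*} [Group H] (K : Subgroup H) : (H ⧸ K) × K ≃ H where
  toFun p := p.1.out * p.2
  invFun g := ((g : H ⧸ K), ⟨((g : H ⧸ K)).out⁻¹ * g, by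
    rw [← QuotientGroup.eq, QuotientGroup.out_eq']⟩)
  left_inv := by
    rintro ⟨q, s, hs⟩
    have h1 : ((q.out * s : H) : H ⧸ K) = q := by
      rw [QuotientGroup.mk_mul_of_mem _ hs, QuotientGroup.out_eq']
    ext
    · exact h1
    · simp only [h1]
      group
  right_inv := by
    intro g
    simp

@[simp] theorem cosetEquiv_apply {H : Type*} [Group H] (K : Subgroup H) (p : (H ⧸ K) × K) :
    cosetEquiv K p = p.1.out * p.2 := rfl

omit [SMulInvariantMeasure G X μ] [MeasurableConstSMul G X] in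
/-- a weight for a subgroup of finite index is a weight for the group -/
theorem IsWt.of_le (h : IsWt μ Γ' ρ c) (hle : Γ' ≤ Γ) (hfi : Γ'.relIndex Γ ≠ 0) :
    IsWt μ Γ ρ (Γ'.relIndex Γ * c) where
  meas := h.meas
  fin := h.fin
  c0 := mul_ne_zero (by exact_mod_cast hfi) h.c0
  ctop := ENNReal.mul_ne_top (ENNReal.natCast_ne_top _) h.ctop
  sum := by
    intro x
    haveI : (Γ'.subgroupOf Γ).FiniteIndex := ⟨hfi⟩
    haveI : Fintype (Γ ⧸ Γ'.subgroupOf Γ) := Subgroup.fintypeQuotientOfFiniteIndex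
    have key : ∑' γ : Γ, ρ ((γ : G) • x) =
        ∑' q : Γ ⧸ Γ'.subgroupOf Γ, ∑' s : Γ'.subgroupOf Γ,
          ρ ((((q.out * (s : Γ) : Γ) : G)⁻¹) • x) := by
      rw [← ENNReal.tsum_prod (f := fun (q : Γ ⧸ Γ'.subgroupOf Γ) (s : Γ'.subgroupOf Γ) =>
        ρ ((((q.out * (s : Γ) : Γ) : G)⁻¹) • x))]
      rw [← (Equiv.inv Γ).tsum_eq, ← (cosetEquiv (Γ'.subgroupOf Γ)).tsum_eq]
      refine tsum_congr fun p => ?_
      simp
    rw [key]
    have hin : ∀ q : Γ ⧸ Γ'.subgroupOf Γ, ∑' s : Γ'.subgroupOf Γ,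
        ρ ((((q.out * (s : Γ) : Γ) : G)⁻¹) • x) = c := by
      intro q
      rw [← h.sum_inv ((((q.out : Γ) : G)⁻¹) • x),
        ← (Subgroup.subgroupOfEquivOfLe hle).toEquiv.tsum_eq]
      refine tsum_congr fun s => ?_
      rw [smul_smul, ← mul_inv_rev]
      rfl
    rw [tsum_congr hin, tsum_fintype, Finset.sum_const, Finset.card_univ, nsmul_eq_mul,
      ← Nat.card_eq_fintype_card]
    rfl

/-- existence of weights for subgroups of finite index -/
theorem IsWt.exists_of_le (h : IsWt μ Γ ρ c) (hle : Γ' ≤ Γ) (hfi : Γ'.relIndex Γ ≠ 0) :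
    ∃ ρ' : X → ℝ≥0∞, IsWt μ Γ' ρ' c := by
  haveI : (Γ'.subgroupOf Γ).FiniteIndex := ⟨hfi⟩
  haveI : Fintype (Γ ⧸ Γ'.subgroupOf Γ) := Subgroup.fintypeQuotientOfFiniteIndex
  have hms : ∀ g : G, Measurable (fun x : X => g • x) := fun g => measurable_const_smul g
  refine ⟨fun x => ∑ q : Γ ⧸ Γ'.subgroupOf Γ, ρ (((q.out : Γ) : G) • x), ?_, ?_, h.c0, h.ctop, ?_⟩
  · exact Finset.measurable_sum _ fun q _ => h.meas.comp (hms _)
  · rw [lintegral_finset_sum (f := fun (q : Γ ⧸ Γ'.subgroupOf Γ) x => ρ (((q.out : Γ) : G) • x)) _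
      fun q _ => h.meas.comp (hms _)]
    refine ENNReal.sum_ne_top.mpr fun q _ => ?_
    change ∫⁻ x, ρ (((q.out : Γ) : G) • x) ∂μ ≠ ∞
    rw [lintegral_smul' h.meas]
    exact h.fin
  · intro x
    rw [← h.sum x, ← (cosetEquiv (Γ'.subgroupOf Γ)).tsum_eq]
    rw [ENNReal.tsum_prod']
    rw [ENNReal.tsum_comm]
    rw [← (Subgroup.subgroupOfEquivOfLe hle).toEquiv.tsum_eq]
    refine tsum_congr fun s => ?_
    rw [tsum_fintype]
    refine Finset.sum_congr rfl fun q _ => ?_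
    rw [smul_smul]
    rfl

/-- translating a weight -/
theorem IsWt.comp_smul (h : IsWt μ Γ ρ c) (g : G) (hΓ : ∀ x : G, x ∈ Γ' ↔ g * x * g⁻¹ ∈ Γ) :
    IsWt μ Γ' (fun x => ρ (g • x)) c where
  meas := h.meas.comp (measurable_const_smul g)
  fin := by rw [lintegral_smul' h.meas]; exact h.fin
  c0 := h.c0
  ctop := h.ctop
  sum := by
    intro x
    rw [← h.sum (g • x)]
    let e : Γ' ≃ Γ :=
      { toFun := fun s => ⟨g * s * g⁻¹, (hΓ _).mp s.2⟩
        invFun := fun s => ⟨g⁻¹ * s * g, (hΓ _).mpr (by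
          have := s.2
          convert! this using 1
          group)⟩
        left_inv := fun s => by ext; simp; group
        right_inv := fun s => by ext; simp; group }
    rw [← e.tsum_eq]
    refine tsum_congr fun s => ?_
    change ρ (g • ((s : G) • x)) = ρ ((g * s * g⁻¹) • g • x)
    rw [smul_smul, smul_smul, inv_mul_cancel_right]

/-- the weight measure of a translated weight -/
theorem withDensity_comp_smul (hρ : Measurable ρ) (g : G) {S : Set X} (hS : MeasurableSet S) :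
    μ.withDensity (fun x => ρ (g • x)) ((fun x => g • x) ⁻¹' S) = μ.withDensity ρ S := by
  have hms : Measurable (fun x : X => g • x) := measurable_const_smul g
  rw [withDensity_apply _ (hms hS), withDensity_apply _ hS, ← lintegral_indicator (hms hS),
    ← lintegral_indicator hS, ← lintegral_smul' (hρ.indicator hS) g]
  refine lintegral_congr fun x => ?_
  rfl

/-- the probability measure of a weight -/
def prw (μ : Measure X) (ρ : X → ℝ≥0∞) : Measure X :=
  (μ.withDensity ρ Set.univ)⁻¹ • μ.withDensity ρ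

omit [MulAction G X] [MeasurableConstSMul G X] [SMulInvariantMeasure G X μ] in
theorem prw_apply (S : Set X) :
    prw μ ρ S = (μ.withDensity ρ Set.univ)⁻¹ * μ.withDensity ρ S := rfl

theorem IsWt.isProb (h : IsWt μ Γ ρ c) [Countable Γ] (hμ : μ ≠ 0) :
    IsProbabilityMeasure (prw μ ρ) := by
  constructor
  rw [prw_apply]
  exact ENNReal.inv_mul_cancel (h.measure_univ_ne_zero hμ) h.measure_univ_ne_top

/-- the probability measures of two weights agree on invariant sets -/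
theorem IsWt.prw_eq (h₁ : IsWt μ Γ ρ₁ c₁) (h₂ : IsWt μ Γ ρ₂ c₂) [Countable Γ] (hμ : μ ≠ 0)
    {S : Set X} (hS : MeasurableSet S) (hinv : ∀ γ ∈ Γ, ∀ x, γ • x ∈ S ↔ x ∈ S) :
    prw μ ρ₁ S = prw μ ρ₂ S := by
  have e1 := h₁.eq h₂ hS hinv
  have e2 := h₁.eq h₂ MeasurableSet.univ (fun _ _ _ => Iff.rfl)
  rw [prw_apply, prw_apply]
  have a1 := h₁.measure_univ_ne_zero hμ
  have a2 := h₂.measure_univ_ne_zero hμ
  have b1 := h₁.measure_univ_ne_top
  have b2 := h₂.measure_univ_ne_top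
  set A₁ := μ.withDensity ρ₁ Set.univ
  set A₂ := μ.withDensity ρ₂ Set.univ
  set B₁ := μ.withDensity ρ₁ S
  set B₂ := μ.withDensity ρ₂ S
  -- c₂ B₁ = c₁ B₂, c₂ A₁ = c₁ A₂
  have h3 : c₁ * (A₂ * B₁) = c₁ * (A₁ * B₂) := by
    calc c₁ * (A₂ * B₁) = (c₁ * A₂) * B₁ := by ring
      _ = (c₂ * A₁) * B₁ := by rw [e2]
      _ = A₁ * (c₂ * B₁) := by ring
      _ = A₁ * (c₁ * B₂) := by rw [e1]
      _ = c₁ * (A₁ * B₂) := by ring
  have h4 : A₂ * B₁ = A₁ * B₂ := (ENNReal.mul_right_inj h₁.c0 h₁.ctop).mp h3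
  calc A₁⁻¹ * B₁ = A₁⁻¹ * B₁ * (A₂ * A₂⁻¹) := by rw [ENNReal.mul_inv_cancel a2 b2, mul_one]
    _ = A₁⁻¹ * (A₂ * B₁) * A₂⁻¹ := by ring
    _ = A₁⁻¹ * (A₁ * B₂) * A₂⁻¹ := by rw [h4]
    _ = (A₁⁻¹ * A₁) * (A₂⁻¹ * B₂) := by ring
    _ = A₂⁻¹ * B₂ := by rw [ENNReal.inv_mul_cancel a1 b1, one_mul]

theorem prw_comp_smul (hρ : Measurable ρ) (g : G) {S : Set X} (hS : MeasurableSet S) :
    prw μ (fun x => ρ (g • x)) ((fun x => g • x) ⁻¹' S) = prw μ ρ S := by
  rw [prw_apply, prw_apply, withDensity_comp_smul hρ g hS]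
  have := withDensity_comp_smul (μ := μ) hρ g MeasurableSet.univ
  rw [Set.preimage_univ] at this
  rw [this]

omit [MulAction G X] [MeasurableConstSMul G X] [SMulInvariantMeasure G X μ] in
/-- integrals of functions from measures of their level sets -/
theorem integral_congr_of_preimage {Y : Type*} [MeasurableSpace Y] {ν : Measure X} {ν' : Measure Y}
    {h : X → ℂ} {h' : Y → ℂ} (hh : Measurable h) (hh' : Measurable h')
    (H : ∀ B : Set ℂ, MeasurableSet B → ν (h ⁻¹' B) = ν' (h' ⁻¹' B)) :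
    ∫ x, h x ∂ν = ∫ y, h' y ∂ν' := by
  have e : ν.map h = ν'.map h' := by
    ext B hB
    rw [Measure.map_apply hh hB, Measure.map_apply hh' hB, H B hB]
  have i1 : ∫ z, z ∂(ν.map h) = ∫ x, h x ∂ν :=
    integral_map hh.aemeasurable measurable_id.aestronglyMeasurable
  have i2 : ∫ z, z ∂(ν'.map h') = ∫ y, h' y ∂ν' :=
    integral_map hh'.aemeasurable measurable_id.aestronglyMeasurable
  rw [← i1, ← i2, e]

end Fermat.Agent.LTF.Pet
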